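import Fermat.Agent.Wp.Basic

/-!
# The addition theorem of `℘`

For `w` outside the lattice both `z ↦ ℘(z + w)` and the chord expression are solutions of
`X'' = 6X² - g₂/2` with the same initial values at `0`.
-/

noncomputable section

open Filter Topology Module
open scoped PeriodPair

namespace Fermat.Agent.Wp

variable {L : PeriodPair}

theorem weierstrassP_add_of_mem {l : ℂ} (hl : l ∈ L.lattice) (z : ℂ) :
    ℘[L] (z + l) = ℘[L] z :=
  L.weierstrassP_add_coe z ⟨l, hl⟩

theorem derivWeierstrassP_add_of_mem {l : ℂ} (hl : l ∈ L.lattice) (z : ℂ) :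
    ℘'[L] (z + l) = ℘'[L] z :=
  L.derivWeierstrassP_add_coe z ⟨l, hl⟩

theorem add_notMem_of_ne {z w : ℂ} (hne : ℘[L] z ≠ ℘[L] w) : z + w ∉ L.lattice := by
  intro h
  refine hne ?_
  rw [← weierstrassP_add_of_mem (neg_mem h) z, ← L.weierstrassP_neg w]
  congr 1
  ring

/-- Twice the slope of the chord through the points of parameters `z` and `w`. -/
def chord (L : PeriodPair) (w z : ℂ) : ℂ := (℘'[L] z - ℘'[L] w) / (℘[L] z - ℘[L] w)

/-- The abscissa of the third point on the chord. -/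
def addFun (L : PeriodPair) (w z : ℂ) : ℂ := chord L w z ^ 2 / 4 - ℘[L] z - ℘[L] w

/-- The derivative of `addFun`. -/
def addFun' (L : PeriodPair) (w z : ℂ) : ℂ :=
  -℘'[L] z - chord L w z * (addFun L w z - ℘[L] z)

/-- The denominator of the extension of `addFun` to `0`. -/
def addDen (L : PeriodPair) (w z : ℂ) : ℂ := 4 * (numU L z - z ^ 2 * ℘[L] w) ^ 2

/-- The numerator of the extension of `addFun` to `0`. -/
def addNum (L : PeriodPair) (w z : ℂ) : ℂ :=
  -L.g₂ * z ^ 2 * numU L z - L.g₃ * z ^ 4 - 2 * z * numV L z * ℘'[L] w + z ^ 4 * ℘'[L] w ^ 2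
    + 8 * numU L z ^ 2 * ℘[L] w - 4 * numU L z * z ^ 2 * ℘[L] w ^ 2

/-- The extension of `addFun` to `0`. -/
def addExt (L : PeriodPair) (w z : ℂ) : ℂ := addNum L w z / addDen L w z - ℘[L] w

theorem addDen_zero (w : ℂ) : addDen L w 0 = 4 := by simp [addDen]

theorem analyticAt_addExt (w : ℂ) : AnalyticAt ℂ (addExt L w) 0 := by
  have hu := analyticAt_numU L
  have hv := analyticAt_numV L
  refine AnalyticAt.fun_sub ?_ analyticAt_const
  refine AnalyticAt.fun_div ?_ ?_ (by rw [addDen_zero]; norm_num)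
  · unfold addNum; fun_prop
  · unfold addDen; fun_prop

theorem addExt_zero (w : ℂ) : addExt L w 0 = ℘[L] w := by
  simp [addExt, addNum, addDen]
  ring

theorem deriv_numU_zero (L : PeriodPair) : deriv (numU L) 0 = 0 := by
  have h := (((hasDerivAt_id (0 : ℂ)).fun_pow 2).fun_mul
    (L.analyticAt_weierstrassPExcept 0).differentiableAt.hasDerivAt).const_add 1
  change deriv (fun x => 1 + x ^ 2 * ℘[L - (0 : ℂ)] x) 0 = 0
  simp only [id_eq] at h
  rw [h.deriv]
  simp

theorem deriv_addExt_zero (w : ℂ) : deriv (addExt L w) 0 = ℘'[L] w := by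
  have hu : HasDerivAt (numU L) 0 0 := by
    simpa only [deriv_numU_zero L] using (analyticAt_numU L).differentiableAt.hasDerivAt
  have hv := (analyticAt_numV L).differentiableAt.hasDerivAt
  have hid := hasDerivAt_id (0 : ℂ)
  have hnum : HasDerivAt (addNum L w) (4 * ℘'[L] w) 0 := by
    have h := ((((((hid.fun_pow 2).const_mul (-L.g₂)).fun_mul hu).fun_sub
      ((hid.fun_pow 4).const_mul L.g₃)).fun_sub
      (((hid.const_mul 2).fun_mul hv).mul_const (℘'[L] w))).fun_add
      ((hid.fun_pow 4).mul_const (℘'[L] w ^ 2))).fun_add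
      (((hu.fun_pow 2).const_mul 8).mul_const (℘[L] w))
    have h' := h.fun_sub (((hu.const_mul 4).fun_mul (hid.fun_pow 2)).mul_const (℘[L] w ^ 2))
    simp only [id_eq] at h'
    refine h'.congr_deriv ?_
    simp only [numU_zero, numV_zero]
    ring
  have hden : HasDerivAt (addDen L w) 0 0 := by
    have h := ((hu.fun_sub ((hid.fun_pow 2).mul_const (℘[L] w))).fun_pow 2).const_mul 4
    simp only [id_eq] at h
    exact h.congr_deriv (by simp)
  have h := ((hnum.fun_div hden (by rw [addDen_zero]; norm_num)).sub_const (℘[L] w)).deriv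
  rw [show addExt L w = fun z => addNum L w z / addDen L w z - ℘[L] w from rfl, h, addDen_zero]
  ring

theorem addExt_eq {w z : ℂ} (hz : z ∉ L.lattice) (hne : ℘[L] z ≠ ℘[L] w) :
    addExt L w z = addFun L w z := by
  have hz0 : z ≠ 0 := fun h => hz (h ▸ L.lattice.zero_mem)
  have hsq := L.derivWeierstrassP_sq z hz
  have hd : ℘[L] z - ℘[L] w ≠ 0 := sub_ne_zero.mpr hne
  have hP := weierstrassP_eq_numU_div (L := L) z hz0
  have hP' := derivWeierstrassP_eq_numV_div (L := L) z hz0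
  have hden : numU L z - z ^ 2 * ℘[L] w ≠ 0 := by
    intro h
    apply hd
    rw [hP, sub_eq_zero.mp h]
    field_simp
    ring
  rw [hP, hP'] at hsq
  field_simp at hsq
  rw [addExt, addFun, chord, addNum, addDen, hP, hP']
  have hden' : numU L z - ℘[L] w * z ^ 2 ≠ 0 := by rwa [mul_comm]
  field_simp
  linear_combination (-1 : ℂ) * hsq

theorem hasDerivAt_chord {w z : ℂ} (hz : z ∉ L.lattice) (hw : w ∉ L.lattice)
    (hne : ℘[L] z ≠ ℘[L] w) :
    HasDerivAt (chord L w) (2 * (2 * ℘[L] z + ℘[L] w) - chord L w z ^ 2 / 2) z := by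
  have hd : ℘[L] z - ℘[L] w ≠ 0 := sub_ne_zero.mpr hne
  refine (((hasDerivAt_derivWeierstrassP hz).sub_const (℘'[L] w)).fun_div
    ((hasDerivAt_weierstrassP hz).sub_const (℘[L] w)) hd).congr_deriv ?_
  have h1 := L.derivWeierstrassP_sq z hz
  have h2 := L.derivWeierstrassP_sq w hw
  rw [chord]
  field_simp
  linear_combination (-1 : ℂ) * h1 + h2

theorem hasDerivAt_addFun {w z : ℂ} (hz : z ∉ L.lattice) (hw : w ∉ L.lattice)
    (hne : ℘[L] z ≠ ℘[L] w) : HasDerivAt (addFun L w) (addFun' L w z) z := by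
  refine (((((hasDerivAt_chord hz hw hne).fun_pow 2).div_const 4).fun_sub
    (hasDerivAt_weierstrassP hz)).sub_const (℘[L] w)).congr_deriv ?_
  rw [addFun', addFun]
  simp
  ring

theorem hasDerivAt_addFun' {w z : ℂ} (hz : z ∉ L.lattice) (hw : w ∉ L.lattice)
    (hne : ℘[L] z ≠ ℘[L] w) :
    HasDerivAt (addFun' L w) (6 * addFun L w z ^ 2 - L.g₂ / 2) z := by
  have hd : ℘[L] z - ℘[L] w ≠ 0 := sub_ne_zero.mpr hne
  refine ((hasDerivAt_derivWeierstrassP hz).fun_neg.fun_sub
    ((hasDerivAt_chord hz hw hne).fun_mul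
      ((hasDerivAt_addFun hz hw hne).fun_sub (hasDerivAt_weierstrassP hz)))).congr_deriv ?_
  have h1 := L.derivWeierstrassP_sq z hz
  have h2 := L.derivWeierstrassP_sq w hw
  rw [addFun', addFun]
  have hn : chord L w z * (℘[L] z - ℘[L] w) = ℘'[L] z - ℘'[L] w := div_mul_cancel₀ _ hd
  generalize hc : chord L w z = c at hn ⊢
  refine mul_left_cancel₀ hd ?_
  linear_combination h1 - h2 + (℘'[L] z + ℘'[L] w - c * (℘[L] z - ℘[L] w)) * hn

theorem analyticAt_weierstrassP_add {w : ℂ} (hw : w ∉ L.lattice) :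
    AnalyticAt ℂ (fun z => ℘[L] (z + w)) 0 := by
  refine AnalyticAt.fun_comp (g := ℘[L]) ?_ (by fun_prop)
  rw [zero_add]
  exact L.analyticOnNhd_weierstrassP w hw

/-- Two functions continuous at a point that agree near it agree at it. -/
theorem eventually_addFun_domain (w : ℂ) :
    ∀ᶠ z in 𝓝[≠] (0 : ℂ), z ∉ L.lattice ∧ ℘[L] z ≠ ℘[L] w := by
  have hu : ∀ᶠ z in 𝓝[≠] (0 : ℂ), numU L z - z ^ 2 * ℘[L] w ≠ 0 := by
    have h := analyticAt_numU L
    have hc : ContinuousAt (fun z => numU L z - z ^ 2 * ℘[L] w) 0 := by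
      have := h.continuousAt
      fun_prop
    exact (hc.eventually_ne (by simp)).filter_mono nhdsWithin_le_nhds
  filter_upwards [self_mem_nhdsWithin, eventually_notMem_lattice L, hu] with z hz hzL hzu
  refine ⟨hzL, fun heq => hzu ?_⟩
  have : z ≠ 0 := hz
  rw [weierstrassP_eq_numU_div z hz] at heq
  rw [← heq]
  field_simp
  ring

theorem addExt_eventuallyEq {w : ℂ} (hw : w ∉ L.lattice) :
    ∀ᶠ z in 𝓝 (0 : ℂ), addExt L w z = ℘[L] (z + w) := by
  have hF := analyticAt_addExt (L := L) w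
  have hH := analyticAt_weierstrassP_add hw
  have hF2 : ∀ᶠ z in 𝓝 (0 : ℂ),
      deriv (deriv (addExt L w)) z = 6 * addExt L w z ^ 2 - L.g₂ / 2 := by
    refine (hF.deriv.deriv.continuousAt.eventuallyEq_nhds_iff_eventuallyEq_nhdsNE ?_).mp ?_
    · have := hF.continuousAt
      fun_prop
    have hloc : ∀ᶠ z in 𝓝[≠] (0 : ℂ), ∀ᶠ y in 𝓝 z, y ∉ L.lattice ∧ ℘[L] y ≠ ℘[L] w := by
      obtain ⟨s, hs, hs'⟩ := (eventually_nhdsWithin_iff.mp (eventually_addFun_domain w)).exists_mem
      obtain ⟨t, hts, ht, h0⟩ := mem_nhds_iff.mp hs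
      filter_upwards [self_mem_nhdsWithin, mem_nhdsWithin_of_mem_nhds (ht.mem_nhds h0)]
        with z hz hzt
      filter_upwards [ht.mem_nhds hzt, isOpen_compl_singleton.mem_nhds hz] with y hy hy0
      exact hs' y (hts hy) hy0
    filter_upwards [hloc] with z hz
    have e0 : addExt L w =ᶠ[𝓝 z] addFun L w := hz.mono fun y hy => addExt_eq hy.1 hy.2
    have e1 : deriv (addExt L w) =ᶠ[𝓝 z] addFun' L w := by
      filter_upwards [e0.deriv, hz] with y hy hy'
      rw [hy, (hasDerivAt_addFun hy'.1 hw hy'.2).deriv]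
    rw [e1.deriv_eq, (hasDerivAt_addFun' hz.self_of_nhds.1 hw hz.self_of_nhds.2).deriv,
      e0.self_of_nhds]
  have hnear : ∀ᶠ z in 𝓝 (0 : ℂ), z + w ∉ L.lattice := by
    have hc : ContinuousAt (fun z : ℂ => z + w) 0 := by fun_prop
    exact hc.preimage_mem_nhds ((isOpen_compl_lattice L).mem_nhds (by simpa using hw))
  have hH1 : ∀ᶠ z in 𝓝 (0 : ℂ), deriv (fun z => ℘[L] (z + w)) z = ℘'[L] (z + w) := by
    filter_upwards with z
    rw [deriv_comp_add_const, L.deriv_weierstrassP]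
  have hH2 : ∀ᶠ z in 𝓝 (0 : ℂ), deriv (deriv fun z => ℘[L] (z + w)) z
      = 6 * ℘[L] (z + w) ^ 2 - L.g₂ / 2 := by
    filter_upwards [hnear] with z hz
    have e : deriv (fun z => ℘[L] (z + w)) = fun z => ℘'[L] (z + w) := by
      funext y; rw [deriv_comp_add_const, L.deriv_weierstrassP]
    rw [e, deriv_comp_add_const, deriv_derivWeierstrassP hz]
  set E : ℂ → ℂ := fun z => addExt L w z - ℘[L] (z + w) with hE
  have hd1 : ∀ᶠ z in 𝓝 (0 : ℂ),
      deriv E z = deriv (addExt L w) z - deriv (fun z => ℘[L] (z + w)) z := by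
    filter_upwards [hF.eventually_analyticAt, hH.eventually_analyticAt] with z h1 h2
    exact deriv_fun_sub h1.differentiableAt h2.differentiableAt
  have h0 : E 0 = 0 := by simp [hE, addExt_zero]
  have h1 : deriv E 0 = 0 := by
    rw [hd1.self_of_nhds, deriv_addExt_zero, hH1.self_of_nhds, zero_add, sub_self]
  have hode : deriv (deriv E) =ᶠ[𝓝 0] fun z => 6 * (addExt L w z + ℘[L] (z + w)) * E z := by
    filter_upwards [EventuallyEq.deriv (hd1 : deriv E =ᶠ[𝓝 0] _), hF2, hH2,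
      hF.deriv.eventually_analyticAt, hH.deriv.eventually_analyticAt] with z hz h2 h3 h4 h5
    rw [hz, deriv_fun_sub h4.differentiableAt h5.differentiableAt, h2, h3, hE]
    ring
  have hh : AnalyticAt ℂ (fun z => 6 * (addExt L w z + ℘[L] (z + w))) 0 :=
    analyticAt_const.fun_mul (hF.fun_add hH)
  filter_upwards [eventually_zero_of_ode (hF.fun_sub hH) hh h0 h1 hode] with z hz
  exact sub_eq_zero.mp hz

/-- The addition theorem. -/
theorem weierstrassP_add {z w : ℂ} (hz : z ∉ L.lattice) (hw : w ∉ L.lattice)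
    (hne : ℘[L] z ≠ ℘[L] w) :
    ℘[L] (z + w) = addFun L w z ∧ ℘'[L] (z + w) = addFun' L w z := by
  set U : Set ℂ := {y | y ∉ L.lattice ∧ ℘[L] y ≠ ℘[L] w} with hU
  have hUo : IsOpen U :=
    L.analyticOnNhd_weierstrassP.continuousOn.isOpen_inter_preimage (isOpen_compl_lattice L)
      isOpen_compl_singleton
  have hUc : IsPreconnected U := by
    have : U = ((L.lattice : Set ℂ) ∪ {y | y ∉ L.lattice ∧ ℘[L] y = ℘[L] w})ᶜ := by
      ext y; simp [hU]; tauto
    rw [this]
    exact isPreconnected_compl_countable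
      ((countable_lattice L).union (countable_preimage_weierstrassP L _))
  have hA : AnalyticOnNhd ℂ (addFun L w) U := by
    refine DifferentiableOn.analyticOnNhd (fun y hy => ?_) hUo
    exact (hasDerivAt_addFun hy.1 hw hy.2).differentiableAt.differentiableWithinAt
  have hB : AnalyticOnNhd ℂ (fun y => ℘[L] (y + w)) U := fun y hy =>
    AnalyticAt.fun_comp (g := ℘[L]) (L.analyticOnNhd_weierstrassP _ (add_notMem_of_ne hy.2))
      (by fun_prop)
  obtain ⟨s, hs, hs'⟩ := ((addExt_eventuallyEq hw).and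
    (eventually_nhdsWithin_iff.mp (eventually_addFun_domain w))).exists_mem
  obtain ⟨t, hts, ht, h0⟩ := mem_nhds_iff.mp hs
  obtain ⟨y, hy, hy0⟩ : ∃ y ∈ t, y ≠ (0 : ℂ) := by
    have h := (mem_nhdsWithin_of_mem_nhds (ht.mem_nhds h0) : t ∈ 𝓝[≠] (0 : ℂ))
    obtain ⟨y, hy⟩ := Filter.nonempty_of_mem (Filter.inter_mem h self_mem_nhdsWithin)
    exact ⟨y, hy.1, hy.2⟩
  have hyU : y ∈ U := (hs' y (hts hy)).2 hy0
  have heq : addFun L w =ᶠ[𝓝 y] fun y => ℘[L] (y + w) := by
    filter_upwards [ht.mem_nhds hy, hUo.mem_nhds hyU] with x hx hxU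
    rw [← addExt_eq hxU.1 hxU.2]
    exact (hs' x (hts hx)).1
  have hall := hA.eqOn_of_preconnected_of_eventuallyEq hB hUc hyU heq
  refine ⟨(hall ⟨hz, hne⟩).symm, ?_⟩
  have hev : addFun L w =ᶠ[𝓝 z] fun y => ℘[L] (y + w) :=
    eventually_of_mem (hUo.mem_nhds ⟨hz, hne⟩) fun x hx => hall hx
  rw [← (hasDerivAt_addFun hz hw hne).deriv, hev.deriv_eq, deriv_comp_add_const,
    L.deriv_weierstrassP]

end Fermat.Agent.Wp
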