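import Fermat.Agent.Wp.Uniform
import Mathlib.NumberTheory.ModularForms.EisensteinSeries.QExpansion
import Mathlib.NumberTheory.LSeries.HurwitzZetaValues

/-!
# The lattices `ℤτ + ℤ` and scaling of `℘`

Invariants of `ℤτ + ℤ` as Eisenstein series, and behaviour under scaling of the lattice.
-/

noncomputable section

open Filter Topology UpperHalfPlane EisensteinSeries
open scoped PeriodPair Real MatrixGroups

namespace Fermat.Agent.Wp

/-- The lattice `ℤτ + ℤ`. -/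
def pairTau (τ : ℍ) : PeriodPair where
  ω₁ := (τ : ℂ)
  ω₂ := 1
  indep := by
    refine LinearIndependent.pair_iff.mpr fun a b h => ?_
    have h1 := congrArg Complex.im h
    have h2 := congrArg Complex.re h
    simp only [Complex.add_im, Complex.smul_im, Complex.one_im, smul_eq_mul, mul_zero, add_zero,
      Complex.zero_im, mul_eq_zero, UpperHalfPlane.coe_im, τ.im_pos.ne', or_false] at h1
    simp only [h1, zero_smul, zero_add, Complex.smul_re, Complex.one_re, smul_eq_mul, mul_one,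
      Complex.zero_re] at h2
    exact ⟨h1, h2⟩

theorem mem_pairTau {τ : ℍ} {x : ℂ} :
    x ∈ (pairTau τ).lattice ↔ ∃ m n : ℤ, (m : ℂ) * τ + n = x := by
  rw [PeriodPair.mem_lattice]
  simp [pairTau]

theorem intCast_mem_pairTau (τ : ℍ) (n : ℤ) : (n : ℂ) ∈ (pairTau τ).lattice :=
  mem_pairTau.mpr ⟨0, n, by simp⟩

theorem intCast_mul_coe_mem_pairTau (τ : ℍ) (m : ℤ) : (m : ℂ) * τ ∈ (pairTau τ).lattice :=
  mem_pairTau.mpr ⟨m, 0, by simp⟩

section Scale

variable {L L' : PeriodPair} {μ : ℂ} (hμ : μ ≠ 0) (h : ∀ z, z ∈ L'.lattice ↔ μ * z ∈ L.lattice)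

/-- Multiplication by `μ` between two lattices. -/
def scaleEquiv : L'.lattice ≃ L.lattice where
  toFun l := ⟨μ * l, (h l).mp l.2⟩
  invFun l := ⟨μ⁻¹ * l, (h _).mpr (by rw [mul_inv_cancel_left₀ hμ]; exact l.2)⟩
  left_inv l := Subtype.ext (inv_mul_cancel_left₀ hμ _)
  right_inv l := Subtype.ext (mul_inv_cancel_left₀ hμ _)

include hμ h

theorem weierstrassP_mul (z : ℂ) : ℘[L] (μ * z) = (μ ^ 2)⁻¹ * ℘[L'] z := by
  rw [PeriodPair.weierstrassP, PeriodPair.weierstrassP, ← (scaleEquiv hμ h).tsum_eq,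
    ← tsum_mul_left]
  refine tsum_congr fun l => ?_
  simp only [scaleEquiv, Equiv.coe_fn_mk, ← mul_sub, mul_pow, one_div, mul_inv]

theorem derivWeierstrassP_mul (z : ℂ) : ℘'[L] (μ * z) = (μ ^ 3)⁻¹ * ℘'[L'] z := by
  rw [PeriodPair.derivWeierstrassP, PeriodPair.derivWeierstrassP, ← (scaleEquiv hμ h).tsum_eq,
    mul_neg, ← tsum_mul_left]
  congr 1
  refine tsum_congr fun l => ?_
  simp only [scaleEquiv, Equiv.coe_fn_mk, ← mul_sub, mul_pow, div_eq_mul_inv, mul_inv]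
  ring

theorem G_scale (n : ℕ) : L.G n = (μ ^ n)⁻¹ * L'.G n := by
  rw [PeriodPair.G, PeriodPair.G, ← (scaleEquiv hμ h).tsum_eq, ← tsum_mul_left]
  refine tsum_congr fun l => ?_
  simp [scaleEquiv, mul_pow, mul_comm]

end Scale

section Eisenstein

/-- Coefficient vectors of lattice vectors. -/
def coordEquiv (τ : ℍ) : (Fin 2 → ℤ) ≃ (pairTau τ).lattice :=
  (finTwoArrowEquiv ℤ).trans (pairTau τ).latticeEquivProd.symm.toEquiv

theorem coe_coordEquiv (τ : ℍ) (v : Fin 2 → ℤ) :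
    (coordEquiv τ v : ℂ) = (v 0 : ℂ) * τ + v 1 := by
  change (((pairTau τ).latticeEquivProd.symm (v 0, v 1) : (pairTau τ).lattice) : ℂ) = _
  rw [PeriodPair.latticeEquiv_symm_apply]
  simp [pairTau]

theorem G_pairTau (τ : ℍ) {k : ℕ} (hk : 3 ≤ k) :
    (pairTau τ).G k = 2 * riemannZeta k * ModularForm.E hk τ := by
  have h1 : (pairTau τ).G k = ∑' v : Fin 2 → ℤ, eisSummand k v τ := by
    rw [PeriodPair.G, ← (coordEquiv τ).tsum_eq]
    refine tsum_congr fun v => ?_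
    rw [coe_coordEquiv, eisSummand, zpow_neg, zpow_natCast]
  rw [h1, tsum_eisSummand_eq_riemannZeta_mul_eisensteinSeries hk τ,
    show ModularForm.E hk τ = (1 / 2 : ℂ) • eisensteinSeriesSIF (N := 1) 0 k τ from rfl,
    eisensteinSeriesSIF_apply, smul_eq_mul]
  ring

theorem riemannZeta_six : riemannZeta 6 = π ^ 6 / 945 := by
  have h := riemannZeta_two_mul_nat (k := 3) (by norm_num)
  have h6 : bernoulli 6 = 1 / 42 := by
    rw [bernoulli_eq_bernoulli'_of_ne_one (by norm_num), bernoulli'_def]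
    simp [Finset.sum_range_succ, bernoulli'_zero, bernoulli'_one, bernoulli'_two, bernoulli'_three,
      bernoulli'_four, bernoulli'_eq_zero_of_odd (n := 5) (by decide) (by norm_num)]
    norm_num [Nat.choose_eq_factorial_div_factorial, Nat.factorial]
  norm_num [h6, Nat.factorial] at h
  rw [h]
  ring

theorem g₂_pairTau (τ : ℍ) : (pairTau τ).g₂ = 4 * π ^ 4 / 3 * ModularForm.E₄ τ := by
  rw [PeriodPair.g₂, G_pairTau τ (by norm_num : 3 ≤ 4)]
  norm_num [riemannZeta_four]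
  ring

theorem g₃_pairTau (τ : ℍ) : (pairTau τ).g₃ = 8 * π ^ 6 / 27 * ModularForm.E₆ τ := by
  rw [PeriodPair.g₃, G_pairTau τ (by norm_num : 3 ≤ 6)]
  norm_num [riemannZeta_six]
  ring

end Eisenstein

section Modular

theorem denom_eq (g : SL(2, ℤ)) (τ : ℍ) :
    UpperHalfPlane.denom g τ = (g 1 0 : ℂ) * τ + g 1 1 := by
  simp [UpperHalfPlane.denom]

/-- The lattice of `g • τ` is the lattice of `τ` scaled. -/
theorem mem_pairTau_smul (g : SL(2, ℤ)) (τ : ℍ) (z : ℂ) :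
    z ∈ (pairTau (g • τ)).lattice ↔
      ((g 1 0 : ℂ) * τ + g 1 1) * z ∈ (pairTau τ).lattice := by
  have hden : ((g 1 0 : ℂ) * τ + g 1 1) ≠ 0 := denom_eq g τ ▸ UpperHalfPlane.denom_ne_zero _ τ
  have hcoe : ((g • τ : ℍ) : ℂ) =
      ((g 0 0 : ℂ) * τ + g 0 1) / ((g 1 0 : ℂ) * τ + g 1 1) := by
    rw [UpperHalfPlane.specialLinearGroup_apply]
    simp
  have hdet : g 0 0 * g 1 1 - g 0 1 * g 1 0 = 1 := by
    rw [← Matrix.det_fin_two]; exact g.2
  have hdetC : ((g 0 0 : ℂ) * g 1 1 - g 0 1 * g 1 0) = 1 := by exact_mod_cast hdet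
  simp only [mem_pairTau, hcoe]
  constructor
  · rintro ⟨m, n, rfl⟩
    refine ⟨m * g 0 0 + n * g 1 0, m * g 0 1 + n * g 1 1, ?_⟩
    push_cast
    field_simp
    ring
  · rintro ⟨m, n, h⟩
    refine ⟨m * g 1 1 - n * g 1 0, n * g 0 0 - m * g 0 1, ?_⟩
    apply mul_left_cancel₀ hden
    rw [← h]
    push_cast
    field_simp
    linear_combination ((m : ℂ) * τ + n) * hdetC

end Modular

end Fermat.Agent.Wp
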